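import Fermat.Agent.S18.B12.Spec2

/-!
# S18, Route K, b2.5: piece A5 `GenericDiscrStatement` (helper896)

`genericDiscr_of : RegSeqAbsStatement → TameDiscrStatement → GenericDiscrStatement`.

Proof.  `Λ₀ := P[1/w]` (a PID containing `ℚ`), `C₀ := B[1/w]` (normal, noetherian, integral over
`Λ₀`, hence Dedekind; finite torsion-free over the PID `Λ₀`, hence free).  `t := π/1` is prime in
`Λ₀`.  The images `x̃` of the local basis `x` are `Λ₀`-independent and `g·C₀ ⊆ span x̃`, hence
`rank C₀ = n` and `x̃ = M·β` for a basis `β` with `det M ∣ g ^ n`, so `t ∤ det M`; and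
`disc x̃ = (intDiscr x)/1` (`Algebra.intTrace_eq_of_isLocalization`).  `y` stays independent modulo
`rad(t C₀)` (clear denominators and use A0 for the pair `(π, w ^ j)`).  So P3 gives
`t ^ (n - r + 1) ∤ disc β`, whence `π ^ (n - r + 1) ∤ intDiscr x`.
-/

set_option autoImplicit false

noncomputable section

namespace Fermat.Agent.S18.B12.H896

universe u v

section Setup

variable {P : Type u} [CommRing P] [IsDomain P] (w : P)
  (B : Type v) [CommRing B] [IsDomain B] [Algebra P B] [Module.IsTorsionFree P B]

/-- `B[1/w]`. -/
abbrev Cw : Type v := Localization (Algebra.algebraMapSubmonoid B (Submonoid.powers w))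

lemma powers_le (hw : w ≠ 0) : Submonoid.powers w ≤ nonZeroDivisors P :=
  powers_le_nonZeroDivisors_of_noZeroDivisors hw

lemma algSub_le (hw : w ≠ 0) :
    Algebra.algebraMapSubmonoid B (Submonoid.powers w) ≤ nonZeroDivisors B := by
  rintro _ ⟨a, ha, rfl⟩
  have : a ≠ 0 := nonZeroDivisors.ne_zero (powers_le w hw ha)
  exact mem_nonZeroDivisors_of_ne_zero
    ((map_ne_zero_iff _ (FaithfulSMul.algebraMap_injective P B)).mpr this)

lemma algebraMap_Cw_injective (hw : w ≠ 0) : Function.Injective (algebraMap B (Cw w B)) :=
  IsLocalization.injective _ (algSub_le w B hw)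

lemma algebraMap_Lw_injective (hw : w ≠ 0) :
    Function.Injective (algebraMap P (Localization.Away w)) :=
  IsLocalization.injective _ (powers_le w hw)

/-- Divisibility by a prime `π` not associated to `w` can be tested in `P[1/w]`. -/
lemma dvd_of_map_dvd {π : P} (hπ : Prime π) (hw : Prime w) (hπw : ¬ Associated π w) (a : P)
    (h : algebraMap P (Localization.Away w) π ∣ algebraMap P (Localization.Away w) a) :
    π ∣ a := by
  obtain ⟨c, hc⟩ := h
  obtain ⟨⟨c', ⟨_, k, rfl⟩⟩, hc'⟩ := IsLocalization.surj (Submonoid.powers w) c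
  simp only at hc'
  -- c * w^k = c'
  have h1 : algebraMap P (Localization.Away w) (a * w ^ k) =
      algebraMap P (Localization.Away w) (π * c') := by
    rw [map_mul, map_mul, hc, ← hc']; ring
  have h2 : a * w ^ k = π * c' := algebraMap_Lw_injective w hw.ne_zero h1
  have h3 : π ∣ a * w ^ k := ⟨c', h2⟩
  rcases hπ.dvd_or_dvd h3 with h | h
  · exact h
  · exfalso
    have h4 : π ∣ w := hπ.dvd_of_dvd_pow h
    exact hπw (hπ.irreducible.associated_of_dvd hw.irreducible h4)

end Setup

/-- **A5.**  `GenericDiscrStatement` from A0 (`RegSeqAbsStatement`) and P3 (`TameDiscrStatement`). -/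
theorem genericDiscr_of (hA0 : RegSeqAbsStatement.{u, v}) (hP3 : TameDiscrStatement.{u, v}) :
    GenericDiscrStatement.{u, v} := by
  intro P _ _ _ _ w hw hPID hunits B _ _ _ _ _ _ π hπ hπw n x hx r y hy
  classical
  obtain ⟨hli, g, hg, hspan⟩ := hx
  have hw0 : w ≠ 0 := hw.ne_zero
  have hPB : Function.Injective (algebraMap P B) := FaithfulSMul.algebraMap_injective P B
  -- instances on the localisations `Λ₀ = P[1/w]`, `C₀ = B[1/w]`
  have iΛdom : IsDomain (Localization.Away w) :=
    IsLocalization.isDomain_localization (powers_le w hw0)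
  have iCdom : IsDomain (Cw w B) := IsLocalization.isDomain_localization (algSub_le w B hw0)
  have iΛic : IsIntegrallyClosed (Localization.Away w) :=
    isIntegrallyClosed_of_isLocalization _ (Submonoid.powers w) (powers_le w hw0)
  have iCic : IsIntegrallyClosed (Cw w B) :=
    isIntegrallyClosed_of_isLocalization _ _ (algSub_le w B hw0)
  have iFin : Module.Finite (Localization.Away w) (Cw w B) :=
    Module.Finite.of_isLocalization P B (Submonoid.powers w)
  have iNB : IsNoetherianRing B := IsNoetherianRing.of_finite P B
  have iNC : IsNoetherianRing (Cw w B) :=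
    IsLocalization.isNoetherianRing (Algebra.algebraMapSubmonoid B (Submonoid.powers w)) _ iNB
  have hΛC : Function.Injective (algebraMap (Localization.Away w) (Cw w B)) :=
    localizationAlgebra_injective (Localization.Away w) (Cw w B) hPB
  have hBC : Function.Injective (algebraMap B (Cw w B)) := algebraMap_Cw_injective w B hw0
  have hPΛ : Function.Injective (algebraMap P (Localization.Away w)) :=
    algebraMap_Lw_injective w hw0
  have iTF : Module.IsTorsionFree (Localization.Away w) (Cw w B) :=
    Module.isTorsionFree_iff_algebraMap_injective.mpr hΛC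
  have iDim : Ring.DimensionLEOne (Cw w B) :=
    Ring.DimensionLEOne.of_isIntegral (Localization.Away w) (Cw w B)
  have iDedR : IsDedekindRing (Cw w B) := { }
  have iDed : IsDedekindDomain (Cw w B) := { }
  have iFree : Module.Free (Localization.Away w) (Cw w B) :=
    Module.free_of_finite_type_torsion_free'
  -- `ℚ ⊆ Λ₀`
  have hunitZ : ∀ z : ℤ, z ≠ 0 → IsUnit ((z : ℤ) : Localization.Away w) := by
    intro z hz
    have h1 := hunits z.natAbs (Int.natAbs_ne_zero.mpr hz)
    rw [map_natCast] at h1
    rcases Int.natAbs_eq z with h | h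
    · rw [h]; simpa using h1
    · rw [h]; simpa using h1.neg
  let φ : ℚ →+* Localization.Away w :=
    IsLocalization.lift (M := nonZeroDivisors ℤ) (S := ℚ) (g := Int.castRingHom _)
      (fun y => hunitZ y (nonZeroDivisors.ne_zero y.2))
  let iQ : Algebra ℚ (Localization.Away w) := φ.toAlgebra
  -- the prime `t = π/1`
  set t : Localization.Away w := algebraMap P (Localization.Away w) π with ht_def
  have hdisj : Disjoint (Submonoid.powers w : Set P) (Ideal.span {π} : Ideal P) := by
    rw [Set.disjoint_left]
    rintro _ ⟨k, rfl⟩ hk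
    have h1 : π ∣ w ^ k := Ideal.mem_span_singleton.mp hk
    exact hπw (hπ.irreducible.associated_of_dvd hw.irreducible (hπ.dvd_of_dvd_pow h1))
  have ht : Prime t := by
    have hp : (Ideal.span {π} : Ideal P).IsPrime :=
      (Ideal.span_singleton_prime hπ.ne_zero).mpr hπ
    have h1 := IsLocalization.isPrime_of_isPrime_disjoint (Submonoid.powers w)
      (Localization.Away w) _ hp hdisj
    rw [Ideal.map_span, Set.image_singleton] at h1
    have ht0 : t ≠ 0 := (map_ne_zero_iff _ hPΛ).mpr hπ.ne_zero
    exact (Ideal.span_singleton_prime ht0).mp h1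
  have htdvd : ∀ a : P, t ∣ algebraMap P (Localization.Away w) a → π ∣ a :=
    fun a h => dvd_of_map_dvd w hπ hw hπw a h
  -- the images of `x` and `y`
  set xt : Fin n → Cw w B := fun i => algebraMap B (Cw w B) (x i) with hxt
  set yt : Fin r → Cw w B := fun i => algebraMap B (Cw w B) (y i) with hyt
  have hcompat : ∀ (a : P) (b : B), algebraMap B (Cw w B) (a • b) =
      algebraMap P (Localization.Away w) a • algebraMap B (Cw w B) b := by
    intro a b
    rw [Algebra.smul_def, Algebra.smul_def, map_mul,
      ← IsScalarTower.algebraMap_apply P B (Cw w B),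
      ← IsScalarTower.algebraMap_apply P (Localization.Away w) (Cw w B)]
  -- Step 2: `y` stays independent modulo `rad(t C₀)`
  have hy' : ∀ a : Fin r → Localization.Away w,
      (∑ i, a i • yt i) ∈
        (Ideal.span {algebraMap (Localization.Away w) (Cw w B) t}).radical →
      ∀ i, t ∣ a i := by
    intro a ha
    obtain ⟨b, hb⟩ := IsLocalization.exist_integer_multiples_of_finite (Submonoid.powers w) a
    choose a' ha' using hb
    -- `algebraMap (a' i) = b • a i`
    have hbunit : IsUnit (algebraMap P (Localization.Away w) (b : P)) :=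
      IsLocalization.map_units _ b
    set bB : B := ∑ i, a' i • y i with hbB
    have hmap : algebraMap B (Cw w B) bB =
        algebraMap P (Localization.Away w) (b : P) • ∑ i, a i • yt i := by
      rw [hbB, map_sum, Finset.smul_sum]
      refine Finset.sum_congr rfl fun i _ => ?_
      rw [hcompat, ha' i, smul_smul, Algebra.smul_def (b : P) (a i)]
    have hrad : algebraMap B (Cw w B) bB ∈
        (Ideal.span {algebraMap (Localization.Away w) (Cw w B) t}).radical := by
      rw [hmap, Algebra.smul_def]
      exact Ideal.mul_mem_left _ _ ha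
    obtain ⟨m, hm⟩ := hrad
    obtain ⟨c, hc⟩ := Ideal.mem_span_singleton.mp hm
    obtain ⟨⟨c₀, ⟨_, ⟨_, ⟨j, rfl⟩, rfl⟩⟩⟩, hc₀⟩ :=
      IsLocalization.surj (Algebra.algebraMapSubmonoid B (Submonoid.powers w)) c
    simp only at hc₀
    have htB : algebraMap (Localization.Away w) (Cw w B) t =
        algebraMap B (Cw w B) (algebraMap P B π) := by
      rw [ht_def, ← IsScalarTower.algebraMap_apply P (Localization.Away w) (Cw w B),
        ← IsScalarTower.algebraMap_apply P B (Cw w B)]
    have hkey : algebraMap P B (w ^ j) * bB ^ m = algebraMap P B π * c₀ := by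
      apply hBC
      have e1 : algebraMap B (Cw w B) (bB ^ m) =
          algebraMap B (Cw w B) (algebraMap P B π) * c := by
        rw [map_pow, hc, htB]
      rw [map_mul, map_mul, e1, ← hc₀]
      ring
    have hndvd : ¬ π ∣ w ^ j := fun h =>
      hπw (hπ.irreducible.associated_of_dvd hw.irreducible (hπ.dvd_of_dvd_pow h))
    obtain ⟨b'', hb'', -⟩ := hA0 P B (w ^ j) π hπ hndvd (bB ^ m) c₀ hkey
    have hbBrad : bB ∈ (Ideal.span {algebraMap P B π}).radical :=
      ⟨m, Ideal.mem_span_singleton.mpr ⟨b'', hb''⟩⟩
    intro i
    have h1 : π ∣ a' i := hy a' hbBrad i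
    have h2 : t ∣ algebraMap P (Localization.Away w) (a' i) := by
      rw [ht_def]; exact map_dvd _ h1
    rw [ha' i, Algebra.smul_def] at h2
    exact (hbunit.dvd_mul_left).mp h2
  -- Step 3: `x̃` is independent, `g̃ C₀ ⊆ span x̃`, so the rank is `n`
  have hlit : LinearIndependent (Localization.Away w) xt :=
    hli.localization_localization (Localization.Away w) (Submonoid.powers w) (Cw w B)
  set gt : Localization.Away w := algebraMap P (Localization.Away w) g with hgt
  have hg0 : g ≠ 0 := fun h => hg (by rw [h]; exact zero_mem _)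
  have hgt0 : gt ≠ 0 := (map_ne_zero_iff _ hPΛ).mpr hg0
  have hspant : ∀ c : Cw w B,
      gt • c ∈ Submodule.span (Localization.Away w) (Set.range xt) := by
    intro c
    obtain ⟨⟨b₀, ⟨_, ⟨_, ⟨j, rfl⟩, rfl⟩⟩⟩, hb₀⟩ :=
      IsLocalization.surj (Algebra.algebraMapSubmonoid B (Submonoid.powers w)) c
    simp only at hb₀
    obtain ⟨s, hs'⟩ : IsUnit (algebraMap P (Localization.Away w) (w ^ j)) :=
      IsLocalization.map_units _ (⟨w ^ j, j, rfl⟩ : Submonoid.powers w)
    have h1 : algebraMap B (Cw w B) (g • b₀) ∈
        Submodule.span (Localization.Away w) (Set.range xt) := by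
      refine Submodule.span_induction
        (p := fun z _ => algebraMap B (Cw w B) z ∈
          Submodule.span (Localization.Away w) (Set.range xt)) ?_ ?_ ?_ ?_ (hspan b₀)
      · rintro _ ⟨i, rfl⟩
        exact Submodule.subset_span ⟨i, rfl⟩
      · simp
      · intro a b _ _ ha hb
        rw [map_add]
        exact Submodule.add_mem _ ha hb
      · intro a z _ hz
        rw [hcompat]
        exact Submodule.smul_mem _ _ hz
    have hsw : algebraMap B (Cw w B) (algebraMap P B (w ^ j)) =
        algebraMap (Localization.Away w) (Cw w B) (s : Localization.Away w) := by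
      rw [hs', ← IsScalarTower.algebraMap_apply P (Localization.Away w) (Cw w B),
        ← IsScalarTower.algebraMap_apply P B (Cw w B)]
    have hinv : algebraMap (Localization.Away w) (Cw w B) ((s⁻¹ : (Localization.Away w)ˣ) :
        Localization.Away w) * algebraMap (Localization.Away w) (Cw w B) s = 1 := by
      rw [← map_mul, Units.inv_mul, map_one]
    have h2 : gt • c = ((s⁻¹ : (Localization.Away w)ˣ) : Localization.Away w) •
        algebraMap B (Cw w B) (g • b₀) := by
      rw [hcompat, ← hb₀, hsw, Algebra.smul_def, Algebra.smul_def, Algebra.smul_def]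
      linear_combination (-(algebraMap (Localization.Away w) (Cw w B) gt * c)) * hinv
    rw [h2]
    exact Submodule.smul_mem _ _ h1
  have hfin_le : n ≤ Module.finrank (Localization.Away w) (Cw w B) := by
    simpa using hlit.fintype_card_le_finrank
  have hfin_ge : Module.finrank (Localization.Away w) (Cw w B) ≤ n := by
    let f : Cw w B →ₗ[Localization.Away w]
        Submodule.span (Localization.Away w) (Set.range xt) :=
      (LinearMap.lsmul (Localization.Away w) (Cw w B) gt).codRestrict _ hspant
    have hf : Function.Injective f := by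
      intro a b hab
      have h := congrArg Subtype.val hab
      simp only [f] at h
      exact smul_right_injective _ hgt0 h
    have h1 := LinearMap.finrank_le_finrank_of_injective hf
    have h2 : Module.finrank (Localization.Away w)
        (Submodule.span (Localization.Away w) (Set.range xt)) = n := by
      simpa using finrank_span_eq_card hlit
    omega
  have hrank : Module.finrank (Localization.Away w) (Cw w B) = n :=
    le_antisymm hfin_ge hfin_le
  let β : Module.Basis (Fin n) (Localization.Away w) (Cw w B) :=
    Module.finBasisOfFinrankEq _ _ hrank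
  -- Step 4: discriminants
  have hxβ : xt = Matrix.vecMul (⇑β) ((β.toMatrix xt).map (algebraMap _ _)) := by
    funext j
    simp only [Matrix.vecMul, dotProduct, Matrix.map_apply]
    rw [← β.sum_toMatrix_smul_self xt j]
    refine Finset.sum_congr rfl fun i _ => ?_
    rw [Algebra.smul_def, mul_comm]
  have hdiscr : Algebra.discr (Localization.Away w) xt =
      (β.toMatrix xt).det ^ 2 * Algebra.discr (Localization.Away w) β := by
    conv_lhs => rw [hxβ]
    exact Algebra.discr_of_matrix_vecMul _ _
  have hdiscr' : Algebra.discr (Localization.Away w) xt =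
      algebraMap P (Localization.Away w) (intDiscr P B x) := by
    rw [Algebra.discr_def, intDiscr, RingHom.map_det]
    congr 1
    ext i j
    simp only [Algebra.traceMatrix_apply, Algebra.traceForm_apply, RingHom.mapMatrix_apply,
      Matrix.map_apply, Matrix.of_apply]
    rw [Algebra.intTrace_eq_of_isLocalization P B (Aₘ := Localization.Away w)
      (Bₘ := Cw w B) (Submonoid.powers w), Algebra.intTrace_eq_trace,
      map_mul (algebraMap B (Cw w B)) (x i) (x j)]
  -- Step 5: `t ∤ det M`
  have hdet : ¬ t ∣ (β.toMatrix xt).det := by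
    intro hdvd
    have hc : ∀ i, ∃ c : Fin n → Localization.Away w, ∑ j, c j • xt j = gt • β i := fun i =>
      (Submodule.mem_span_range_iff_exists_fun _).mp (hspant (β i))
    choose c hc using hc
    have hprod : β.toMatrix xt * (Matrix.of fun j i => c i j) =
        gt • (1 : Matrix (Fin n) (Fin n) (Localization.Away w)) := by
      ext k i
      have h := congrArg (fun z => β.repr z k) (hc i)
      simp only [map_sum, map_smul, Finsupp.coe_finsetSum, Finset.sum_apply, Finsupp.coe_smul,
        Pi.smul_apply, smul_eq_mul, Module.Basis.repr_self] at h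
      simp only [Matrix.mul_apply, Matrix.smul_apply, Matrix.one_apply, Matrix.of_apply,
        Module.Basis.toMatrix_apply, smul_eq_mul]
      rw [Finsupp.single_apply] at h
      rw [show (∑ j, β.repr (xt j) k * c i j) = ∑ j, c i j * β.repr (xt j) k from
        Finset.sum_congr rfl fun j _ => mul_comm _ _, h]
      by_cases hik : i = k
      · subst hik; simp
      · have hki : ¬ k = i := fun h => hik h.symm
        simp [hik, hki]
    have hdetprod : (β.toMatrix xt).det * (Matrix.of fun j i => c i j).det = gt ^ n := by
      rw [← Matrix.det_mul, hprod, Matrix.det_smul, Matrix.det_one, mul_one, Fintype.card_fin]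
    have h1 : t ∣ gt ^ n := hdetprod ▸ Dvd.dvd.mul_right hdvd _
    have h2 : t ∣ gt := ht.dvd_of_dvd_pow h1
    exact hg (Ideal.mem_span_singleton.mpr (htdvd g h2))
  -- Step 6: conclusion
  intro hdvd
  have h1 : t ^ (n - r + 1) ∣ algebraMap P (Localization.Away w) (intDiscr P B x) := by
    rw [ht_def, ← map_pow]
    exact map_dvd _ hdvd
  rw [← hdiscr', hdiscr] at h1
  have h2 : ¬ t ∣ (β.toMatrix xt).det ^ 2 := fun h => hdet (ht.dvd_of_dvd_pow h)
  have h3 := ht.pow_dvd_of_dvd_mul_left (n - r + 1) h2 h1
  exact hP3 (Localization.Away w) t ht (Cw w B) n β r yt hy' h3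

end Fermat.Agent.S18.B12.H896
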